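import Fermat.Agent.S18.H573.RedData
import Fermat.Agent.A3.H799.Disc

/-!
# A3 / LOCAL, dictionary (i): the disc algebra of a residue disc  (helper259)

Interface: the reduction datum `Fermat.Agent.S18.H573.RedData A π F Fk r` (on main): a valuation
ring `A` of the constants `K` with residue map `π : A → k`, a relational reduction of functions
`Red : F → Fk → Prop` (compatible with `+`, `*`, constants, inverses), a place map
`r : Place K F → Place k Fk` with conservation of divisors (`push`) and Gauss normal form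
(`normal`).  All places of `F / K` are assumed to have degree one (`hdeg`).

For a point `x` of the special fibre and a *parameter* `t` at `x` (`IsParam`: `t` reduces to a
uniformiser `tb` at `x` and has no poles in the residue disc `r ⁻¹ x`) we construct

* `discRing RD x : Subring F`, the ring of functions with a reduction (Gauss norm `≤ 1`) and
  without poles in the residue disc of `x`, an `A`-algebra;
* `pt h a`, the unique zero of `t - a` in the disc (`a ∈ 𝔪_A`); `pt_bijective`: the disc is
  parametrised by `𝔪_A`;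
* `discAlg hdeg h : DiscAlg A (discRing RD x)`, the disc algebra in the sense of helper799
  (`ev a f` = value of `f` at `pt h a`, Taylor property);
* the dictionary between divisibility in the disc ring and orders of vanishing:
  `ord_pt_eq_zero_iff`, `exists_eq_nodal_mul`, `le_ord_of_eq_nodal_mul`, `isUnit_ev_of_ord_eq_zero`,
  `red_ev`.
-/

set_option autoImplicit false

noncomputable section

namespace Fermat.Agent.A3.H259

open AlgebraicCurve IsDedekindDomain WithZero Polynomial
open Fermat.Agent.S18.H573 Fermat.Agent.A3.H799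

/-! ## Values at a place of degree one -/

section Value

variable {K F : Type*} [Field K] [Field F] [Algebra K F]

/-- The value of a function at a place is unique. -/
theorem value_unique (P : Place K F) {f : F} {c c' : K}
    (h : P.adicValuation (f - algebraMap K F c) < 1)
    (h' : P.adicValuation (f - algebraMap K F c') < 1) : c = c' := by
  by_contra hne
  have h0 : c' - c ≠ 0 := sub_ne_zero.mpr (Ne.symm hne)
  have h1 : P.adicValuation (algebraMap K F (c' - c)) = 1 := val_algebraMap P h0
  have h2 : algebraMap K F (c' - c) = (f - algebraMap K F c) - (f - algebraMap K F c') := by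
    rw [map_sub]; ring
  rw [h2] at h1
  have h3 := Valuation.map_sub P.adicValuation (f - algebraMap K F c) (f - algebraMap K F c')
  rw [h1] at h3
  exact absurd h3 (not_le.mpr (max_lt h h'))

open Classical in
/-- The value of `f` at `P` (junk value `0` if `f` has no value at `P`). -/
def valueAt (P : Place K F) (f : F) : K :=
  if h : ∃ c : K, P.adicValuation (f - algebraMap K F c) < 1 then h.choose else 0

theorem valueAt_eq (P : Place K F) {f : F} {c : K}
    (h : P.adicValuation (f - algebraMap K F c) < 1) : valueAt P f = c := by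
  have hex : ∃ c : K, P.adicValuation (f - algebraMap K F c) < 1 := ⟨c, h⟩
  rw [valueAt, dif_pos hex]
  exact value_unique P hex.choose_spec h

theorem valueAt_spec (P : Place K F) (hdeg : P.deg = 1) {f : F}
    (hf : P.adicValuation f ≤ 1) : P.adicValuation (f - algebraMap K F (valueAt P f)) < 1 := by
  obtain ⟨c, hc⟩ := exists_val_sub_lt_one P hdeg hf
  rw [valueAt_eq P hc]
  exact hc

theorem valueAt_algebraMap (P : Place K F) (c : K) : valueAt P (algebraMap K F c) = c := by
  apply valueAt_eq
  rw [sub_self, map_zero]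
  exact zero_lt_one

theorem valueAt_add (P : Place K F) (hdeg : P.deg = 1) {f g : F}
    (hf : P.adicValuation f ≤ 1) (hg : P.adicValuation g ≤ 1) :
    valueAt P (f + g) = valueAt P f + valueAt P g := by
  apply valueAt_eq
  have h : f + g - algebraMap K F (valueAt P f + valueAt P g) =
      (f - algebraMap K F (valueAt P f)) + (g - algebraMap K F (valueAt P g)) := by
    rw [map_add]; ring
  rw [h]
  exact lt_of_le_of_lt (Valuation.map_add _ _ _)
    (max_lt (valueAt_spec P hdeg hf) (valueAt_spec P hdeg hg))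

theorem valueAt_mul (P : Place K F) (hdeg : P.deg = 1) {f g : F}
    (hf : P.adicValuation f ≤ 1) (hg : P.adicValuation g ≤ 1) :
    valueAt P (f * g) = valueAt P f * valueAt P g := by
  apply valueAt_eq
  have h : f * g - algebraMap K F (valueAt P f * valueAt P g) =
      (f - algebraMap K F (valueAt P f)) * g +
        algebraMap K F (valueAt P f) * (g - algebraMap K F (valueAt P g)) := by
    rw [map_mul]; ring
  rw [h]
  refine lt_of_le_of_lt (Valuation.map_add _ _ _) (max_lt ?_ ?_)
  · rw [map_mul]
    calc P.adicValuation (f - algebraMap K F (valueAt P f)) * P.adicValuation g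
        ≤ P.adicValuation (f - algebraMap K F (valueAt P f)) * 1 := by
          gcongr
      _ < 1 := by rw [mul_one]; exact valueAt_spec P hdeg hf
  · rw [map_mul]
    calc P.adicValuation (algebraMap K F (valueAt P f)) *
          P.adicValuation (g - algebraMap K F (valueAt P g))
        ≤ 1 * P.adicValuation (g - algebraMap K F (valueAt P g)) := by
          gcongr
          exact val_algebraMap_le P _
      _ < 1 := by rw [one_mul]; exact valueAt_spec P hdeg hg

/-- A function regular at `P` vanishes at `P` iff its value is zero. -/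
theorem valueAt_eq_zero_iff (P : Place K F) (hdeg : P.deg = 1) {f : F}
    (hf : P.adicValuation f ≤ 1) : valueAt P f = 0 ↔ P.adicValuation f < 1 := by
  constructor
  · intro h
    have := valueAt_spec P hdeg hf
    rwa [h, map_zero, sub_zero] at this
  · intro h
    apply valueAt_eq
    rwa [map_zero, sub_zero]

end Value

/-! ## The disc ring -/

section Disc

variable {K : Type*} [Field K] {A : ValuationSubring K} {k : Type*} [Field k]
    {π : A →+* k} {F : Type*} [Field F] [Algebra K F] {Fk : Type*} [Field Fk] [Algebra k Fk]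
    {r : Place K F → Place k Fk}

/-- The ring of functions with a reduction and without poles in the residue disc of `x`. -/
def discRing (RD : RedData A π F Fk r) (x : Place k Fk) : Subring F where
  carrier := {f | (∃ fb, RD.Red f fb) ∧ ∀ P, r P = x → P.adicValuation f ≤ 1}
  mul_mem' := by
    rintro f g ⟨⟨fb, hf⟩, hf'⟩ ⟨⟨gb, hg⟩, hg'⟩
    refine ⟨⟨fb * gb, RD.red_mul hf hg⟩, fun P hP => ?_⟩
    rw [map_mul]
    exact mul_le_one' (hf' P hP) (hg' P hP)
  one_mem' := ⟨⟨1, RD.red_one⟩, fun P _ => by rw [map_one]⟩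
  add_mem' := by
    rintro f g ⟨⟨fb, hf⟩, hf'⟩ ⟨⟨gb, hg⟩, hg'⟩
    exact ⟨⟨fb + gb, RD.red_add hf hg⟩, fun P hP =>
      le_trans (Valuation.map_add _ _ _) (max_le (hf' P hP) (hg' P hP))⟩
  zero_mem' := ⟨⟨0, RD.red_zero⟩, fun P _ => by rw [map_zero]; exact zero_le_one⟩
  neg_mem' := by
    rintro f ⟨⟨fb, hf⟩, hf'⟩
    exact ⟨⟨-fb, RD.red_neg hf⟩, fun P hP => by rw [Valuation.map_neg]; exact hf' P hP⟩

variable (RD : RedData A π F Fk r) (x : Place k Fk)

theorem mem_discRing_iff {f : F} :
    f ∈ discRing RD x ↔ (∃ fb, RD.Red f fb) ∧ ∀ P, r P = x → P.adicValuation f ≤ 1 :=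
  Iff.rfl

theorem algebraMap_mem_discRing (a : A) : algebraMap K F (a : K) ∈ discRing RD x :=
  ⟨⟨_, RD.red_const a⟩, fun P _ => val_algebraMap_le P _⟩

/-- The constants of the disc ring. -/
def constHom : A →+* discRing RD x where
  toFun a := ⟨algebraMap K F (a : K), algebraMap_mem_discRing RD x a⟩
  map_one' := by ext; simp
  map_mul' a b := by ext; simp
  map_zero' := by ext; simp
  map_add' a b := by ext; simp

instance instAlgebraDiscRing : Algebra A (discRing RD x) := (constHom RD x).toAlgebra

@[simp] theorem coe_algebraMap_discRing (a : A) :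
    ((algebraMap A (discRing RD x) a : discRing RD x) : F) = algebraMap K F (a : K) := rfl

/-- `t` is a parameter of the residue disc of `x`: it has no poles in the disc and reduces to a
uniformiser at `x`. -/
structure IsParam (t : F) (tb : Fk) : Prop where
  red : RD.Red t tb
  ord : x.ord tb = 1
  reg : ∀ P, r P = x → P.adicValuation t ≤ 1

variable {RD x}

theorem IsParam.tb_ne_zero {t : F} {tb : Fk} (h : IsParam RD x t tb) : tb ≠ 0 := by
  rintro rfl
  have := h.ord
  simp at this

theorem IsParam.mem {t : F} {tb : Fk} (h : IsParam RD x t tb) : t ∈ discRing RD x :=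
  ⟨⟨tb, h.red⟩, h.reg⟩

theorem π_eq_zero_of_mem_maximalIdeal (RD : RedData A π F Fk r)
    (a : IsLocalRing.maximalIdeal A) : π (a : A) = 0 := by
  rw [RD.π_ker]
  exact (IsLocalRing.mem_maximalIdeal _).mp a.2

/-- `t - a` is again a parameter for `a ∈ 𝔪_A`. -/
theorem IsParam.sub_const {t : F} {tb : Fk} (h : IsParam RD x t tb)
    (a : IsLocalRing.maximalIdeal A) :
    IsParam RD x (t - algebraMap K F (((a : A) : K))) tb := by
  refine ⟨?_, h.ord, fun P hP => ?_⟩
  · have := RD.red_sub h.red (RD.red_const (a : A))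
    rwa [π_eq_zero_of_mem_maximalIdeal RD a, map_zero, sub_zero] at this
  · exact le_trans (Valuation.map_sub _ _ _) (max_le (h.reg P hP) (val_algebraMap_le P _))

theorem IsParam.sub_const_ne_zero {t : F} {tb : Fk} (h : IsParam RD x t tb)
    (a : IsLocalRing.maximalIdeal A) : t - algebraMap K F (((a : A) : K)) ≠ 0 :=
  RD.ne_zero_of_red (h.sub_const a).red h.tb_ne_zero

section Points

variable [HasPrincipalDivisors K F]

theorem IsParam.exists_pt {t : F} {tb : Fk} (h : IsParam RD x t tb)
    (a : IsLocalRing.maximalIdeal A) :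
    ∃ Q, r Q = x ∧ Q.ord (t - algebraMap K F (((a : A) : K))) = 1 ∧
      ∀ P, r P = x → P ≠ Q → P.ord (t - algebraMap K F (((a : A) : K))) = 0 :=
  RD.exists_simple_zero (h.sub_const a).red x h.ord (h.sub_const a).reg

/-- The point of the disc with parameter value `a`. -/
def pt {t : F} {tb : Fk} (h : IsParam RD x t tb) (a : IsLocalRing.maximalIdeal A) :
    Place K F :=
  (h.exists_pt a).choose

theorem r_pt {t : F} {tb : Fk} (h : IsParam RD x t tb) (a : IsLocalRing.maximalIdeal A) :
    r (pt h a) = x :=
  (h.exists_pt a).choose_spec.1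

theorem ord_pt {t : F} {tb : Fk} (h : IsParam RD x t tb) (a : IsLocalRing.maximalIdeal A) :
    (pt h a).ord (t - algebraMap K F (((a : A) : K))) = 1 :=
  (h.exists_pt a).choose_spec.2.1

theorem ord_of_ne_pt {t : F} {tb : Fk} (h : IsParam RD x t tb)
    (a : IsLocalRing.maximalIdeal A) {P : Place K F} (hP : r P = x) (hne : P ≠ pt h a) :
    P.ord (t - algebraMap K F (((a : A) : K))) = 0 :=
  (h.exists_pt a).choose_spec.2.2 P hP hne

theorem val_pt_lt_one {t : F} {tb : Fk} (h : IsParam RD x t tb)
    (a : IsLocalRing.maximalIdeal A) :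
    (pt h a).adicValuation (t - algebraMap K F (((a : A) : K))) < 1 := by
  rw [← ord_pos_iff _ (h.sub_const_ne_zero a), ord_pt h a]
  exact one_pos

/-- A point of the disc at which `t - a` vanishes is `pt h a`. -/
theorem eq_pt_of_val_lt_one {t : F} {tb : Fk} (h : IsParam RD x t tb)
    (a : IsLocalRing.maximalIdeal A) {P : Place K F} (hP : r P = x)
    (h0 : P.adicValuation (t - algebraMap K F (((a : A) : K))) < 1) : P = pt h a := by
  by_contra hne
  have h1 := ord_of_ne_pt h a hP hne
  have h2 := (ord_pos_iff P (h.sub_const_ne_zero a)).mpr h0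
  omega

theorem valueAt_pt_t {t : F} {tb : Fk} (h : IsParam RD x t tb)
    (a : IsLocalRing.maximalIdeal A) : valueAt (pt h a) t = ((a : A) : K) :=
  valueAt_eq _ (val_pt_lt_one h a)

theorem pt_injective {t : F} {tb : Fk} (h : IsParam RD x t tb) :
    Function.Injective (pt h) := by
  intro a b hab
  have h1 := valueAt_pt_t h a
  have h2 := valueAt_pt_t h b
  rw [hab, h2] at h1
  exact Subtype.ext (Subtype.ext h1.symm)

/-- Every point of the disc is `pt h a` for some `a ∈ 𝔪_A`. -/
theorem pt_surjective {t : F} {tb : Fk} (h : IsParam RD x t tb)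
    (hdeg : ∀ P : Place K F, P.deg = 1) {P : Place K F} (hP : r P = x) :
    ∃ a : IsLocalRing.maximalIdeal A, pt h a = P := by
  have hc := valueAt_spec P (hdeg P) (h.reg P hP)
  obtain ⟨hcA, hx⟩ := RD.value_lemma h.red x h.reg hP hc
  -- the value reduces to the value of `tb` at `x`, which is zero
  have hπ : π ⟨valueAt P t, hcA⟩ = 0 := by
    by_contra hne
    have h1 : x.adicValuation (algebraMap k Fk (π ⟨valueAt P t, hcA⟩)) = 1 :=
      val_algebraMap x hne
    have h2 : x.adicValuation tb < 1 := by
      rw [← ord_pos_iff x h.tb_ne_zero, h.ord]; exact one_pos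
    have h3 : algebraMap k Fk (π ⟨valueAt P t, hcA⟩) =
        tb - (tb - algebraMap k Fk (π ⟨valueAt P t, hcA⟩)) := by ring
    rw [h3] at h1
    have h4 := Valuation.map_sub x.adicValuation tb
      (tb - algebraMap k Fk (π ⟨valueAt P t, hcA⟩))
    rw [h1] at h4
    exact absurd h4 (not_le.mpr (max_lt h2 hx))
  have hm : (⟨valueAt P t, hcA⟩ : A) ∈ IsLocalRing.maximalIdeal A := by
    rw [IsLocalRing.mem_maximalIdeal, mem_nonunits_iff, ← RD.π_ker]
    exact hπ
  exact ⟨⟨_, hm⟩, (eq_pt_of_val_lt_one h ⟨_, hm⟩ hP hc).symm⟩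

end Points

/-! ## Evaluation, Taylor, the disc algebra -/

section Eval

variable [HasPrincipalDivisors K F]

theorem valueAt_pt_mem (hdeg : ∀ P : Place K F, P.deg = 1) {t : F} {tb : Fk}
    (h : IsParam RD x t tb) (a : IsLocalRing.maximalIdeal A) {f : F} (hf : f ∈ discRing RD x) :
    valueAt (pt h a) f ∈ A := by
  obtain ⟨⟨fb, hfb⟩, hreg⟩ := hf
  have hc := valueAt_spec (pt h a) (hdeg _) (hreg _ (r_pt h a))
  obtain ⟨hcA, -⟩ := RD.value_lemma hfb x hreg (r_pt h a) hc
  exact hcA

/-- Reduction commutes with evaluation. -/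
theorem red_valueAt (hdeg : ∀ P : Place K F, P.deg = 1) {t : F} {tb : Fk}
    (h : IsParam RD x t tb) (a : IsLocalRing.maximalIdeal A) {f : F} {fb : Fk}
    (hf : f ∈ discRing RD x) (hfb : RD.Red f fb) :
    x.adicValuation
      (fb - algebraMap k Fk (π ⟨valueAt (pt h a) f, valueAt_pt_mem hdeg h a hf⟩)) < 1 := by
  have hc := valueAt_spec (pt h a) (hdeg _) (hf.2 _ (r_pt h a))
  obtain ⟨hcA, hx⟩ := RD.value_lemma hfb x hf.2 (r_pt h a) hc
  exact hx

/-- Evaluation at the point with parameter value `a`. -/
def evHom (hdeg : ∀ P : Place K F, P.deg = 1) {t : F} {tb : Fk}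
    (h : IsParam RD x t tb) (a : IsLocalRing.maximalIdeal A) : discRing RD x →ₐ[A] A where
  toFun f := ⟨valueAt (pt h a) (f : F), valueAt_pt_mem hdeg h a f.2⟩
  map_one' := by
    apply Subtype.ext
    have := valueAt_algebraMap (pt h a) (1 : K)
    rw [map_one] at this
    exact this
  map_mul' f g := by
    apply Subtype.ext
    exact valueAt_mul (pt h a) (hdeg _) (f.2.2 _ (r_pt h a)) (g.2.2 _ (r_pt h a))
  map_zero' := by
    apply Subtype.ext
    have := valueAt_algebraMap (pt h a) (0 : K)
    rw [map_zero] at this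
    exact this
  map_add' f g := by
    apply Subtype.ext
    exact valueAt_add (pt h a) (hdeg _) (f.2.2 _ (r_pt h a)) (g.2.2 _ (r_pt h a))
  commutes' c := by
    apply Subtype.ext
    exact valueAt_algebraMap (pt h a) (c : K)

@[simp] theorem coe_evHom (hdeg : ∀ P : Place K F, P.deg = 1) {t : F} {tb : Fk}
    (h : IsParam RD x t tb) (a : IsLocalRing.maximalIdeal A) (f : discRing RD x) :
    ((evHom hdeg h a f : A) : K) = valueAt (pt h a) (f : F) := rfl

/-- Orders in a quotient. -/
theorem ord_div_eq {P : Place K F} {g s : F} (hg : g ≠ 0) (hs : s ≠ 0) :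
    P.ord (g / s) = P.ord g - P.ord s := by
  have h1 : g / s ≠ 0 := div_ne_zero hg hs
  have h2 := P.ord_mul h1 hs
  rw [div_mul_cancel₀ g hs] at h2
  omega

/-- **Taylor**: the difference quotient of a disc function is a disc function. -/
theorem taylor_mem (hdeg : ∀ P : Place K F, P.deg = 1) {t : F} {tb : Fk}
    (h : IsParam RD x t tb) (a : IsLocalRing.maximalIdeal A) {f : F} (hf : f ∈ discRing RD x) :
    (f - algebraMap K F (valueAt (pt h a) f)) / (t - algebraMap K F (((a : A) : K))) ∈
      discRing RD x := by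
  set c : K := valueAt (pt h a) f with hc
  set s : F := t - algebraMap K F (((a : A) : K)) with hs
  have hcA : c ∈ A := valueAt_pt_mem hdeg h a hf
  have hs0 : s ≠ 0 := h.sub_const_ne_zero a
  have hg : f - algebraMap K F c ∈ discRing RD x :=
    Subring.sub_mem _ hf (algebraMap_mem_discRing RD x ⟨c, hcA⟩)
  rcases eq_or_ne (f - algebraMap K F c) 0 with h0 | h0
  · rw [h0, zero_div]
    exact Subring.zero_mem _
  obtain ⟨⟨gb, hgb⟩, hgreg⟩ := hg
  have hq0 : (f - algebraMap K F c) / s ≠ 0 := div_ne_zero h0 hs0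
  refine ⟨?_, fun P hP => ?_⟩
  · -- the quotient has a reduction
    obtain ⟨c', u, ub, hc'0, hu, hub, hfu⟩ := RD.normal _ hq0
    by_cases hc'A : c' ∈ A
    · refine ⟨algebraMap k Fk (π ⟨c', hc'A⟩) * ub, ?_⟩
      rw [hfu]
      exact RD.red_mul (RD.red_constK hc'A) hu
    · exfalso
      have hci : c'⁻¹ ∈ A := (A.mem_or_inv_mem c').resolve_left hc'A
      have hπ : π ⟨c'⁻¹, hci⟩ = 0 := by
        apply RD.π_eq_zero_of_inv_notMem hci
        rwa [inv_inv]
      -- `u * s = c'⁻¹ * (f - c)`
      have h1 : u * s = algebraMap K F c'⁻¹ * (f - algebraMap K F c) := by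
        have h2 : (f - algebraMap K F c) = algebraMap K F c' * u * s := by
          rw [← hfu, div_mul_cancel₀ _ hs0]
        rw [h2, ← mul_assoc, ← mul_assoc, ← map_mul, inv_mul_cancel₀ hc'0, map_one, one_mul]
      have h3 : RD.Red (u * s) (ub * tb) := RD.red_mul hu (h.sub_const a).red
      have h4 : RD.Red (algebraMap K F c'⁻¹ * (f - algebraMap K F c)) 0 := by
        have := RD.red_mul (RD.red_constK hci) hgb
        rwa [hπ, map_zero, zero_mul] at this
      rw [h1] at h3
      have h5 := RD.red_unique h3 h4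
      exact mul_ne_zero hub h.tb_ne_zero h5
  · -- the quotient has no poles in the disc
    rw [← ord_nonneg_iff P hq0, ord_div_eq h0 hs0]
    by_cases hPa : P = pt h a
    · subst hPa
      rw [hs, ord_pt h a]
      have h1 : 0 < (pt h a).ord (f - algebraMap K F c) := by
        rw [ord_pos_iff _ h0]
        exact valueAt_spec _ (hdeg _) (hf.2 _ (r_pt h a))
      omega
    · rw [hs, ord_of_ne_pt h a hP hPa, sub_zero, ord_nonneg_iff P h0]
      exact hgreg P hP

/-- **The disc algebra of the residue disc of `x`** (in the sense of helper799). -/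
def discAlg (hdeg : ∀ P : Place K F, P.deg = 1) {t : F} {tb : Fk}
    (h : IsParam RD x t tb) : DiscAlg A (discRing RD x) where
  t := ⟨t, h.mem⟩
  ev := evHom hdeg h
  ev_t a := Subtype.ext (valueAt_pt_t h a)
  taylor a f := by
    refine ⟨⟨_, taylor_mem hdeg h a f.2⟩, Subtype.ext ?_⟩
    have hs0 := h.sub_const_ne_zero a
    show (f : F) = algebraMap K F (valueAt (pt h a) (f : F)) +
      (t - algebraMap K F (((a : A) : K))) *
        (((f : F) - algebraMap K F (valueAt (pt h a) (f : F))) /
          (t - algebraMap K F (((a : A) : K))))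
    rw [mul_div_cancel₀ _ hs0]
    ring
  nzd a f hf := by
    have hs0 := h.sub_const_ne_zero a
    have h1 : (t - algebraMap K F (((a : A) : K))) * (f : F) = 0 :=
      congrArg (Subtype.val) hf
    rcases mul_eq_zero.mp h1 with h2 | h2
    · exact absurd h2 hs0
    · exact Subtype.ext h2

@[simp] theorem discAlg_t (hdeg : ∀ P : Place K F, P.deg = 1) {t : F} {tb : Fk}
    (h : IsParam RD x t tb) : (((discAlg hdeg h).t : discRing RD x) : F) = t := rfl

@[simp] theorem discAlg_ev (hdeg : ∀ P : Place K F, P.deg = 1) {t : F} {tb : Fk}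
    (h : IsParam RD x t tb) (a : IsLocalRing.maximalIdeal A) (f : discRing RD x) :
    (((discAlg hdeg h).ev a f : A) : K) = valueAt (pt h a) (f : F) := rfl

end Eval

/-! ## Dictionary: divisibility in the disc ring versus orders of vanishing -/

section Dictionary

variable [HasPrincipalDivisors K F]

/-- The coordinate of a point of the disc. -/
def coord (hdeg : ∀ P : Place K F, P.deg = 1) {t : F} {tb : Fk} (h : IsParam RD x t tb)
    {P : Place K F} (hP : r P = x) : IsLocalRing.maximalIdeal A :=
  (pt_surjective h hdeg hP).choose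

@[simp] theorem pt_coord (hdeg : ∀ P : Place K F, P.deg = 1) {t : F} {tb : Fk}
    (h : IsParam RD x t tb) {P : Place K F} (hP : r P = x) : pt h (coord hdeg h hP) = P :=
  (pt_surjective h hdeg hP).choose_spec

@[simp] theorem coord_pt (hdeg : ∀ P : Place K F, P.deg = 1) {t : F} {tb : Fk}
    (h : IsParam RD x t tb) (a : IsLocalRing.maximalIdeal A) :
    coord hdeg h (r_pt h a) = a :=
  pt_injective h (pt_coord hdeg h (r_pt h a))

theorem coe_coord (hdeg : ∀ P : Place K F, P.deg = 1) {t : F} {tb : Fk}
    (h : IsParam RD x t tb) {P : Place K F} (hP : r P = x) :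
    (((coord hdeg h hP : IsLocalRing.maximalIdeal A) : A) : K) = valueAt P t := by
  have h1 := valueAt_pt_t h (coord hdeg h hP)
  rw [pt_coord] at h1
  exact h1.symm

/-- The order of `t - b` at the point `pt h a`. -/
theorem ord_pt_sub (hdeg : ∀ P : Place K F, P.deg = 1) {t : F} {tb : Fk}
    (h : IsParam RD x t tb) [DecidableEq (IsLocalRing.maximalIdeal A)]
    (a b : IsLocalRing.maximalIdeal A) :
    (pt h a).ord (t - algebraMap K F (((b : A) : K))) = if a = b then 1 else 0 := by
  have _ := hdeg
  split_ifs with hab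
  · subst hab
    exact ord_pt h a
  · exact ord_of_ne_pt h b (r_pt h a) fun hpt => hab (pt_injective h hpt)

/-- A disc function vanishes at `pt h a` iff its value there is zero. -/
theorem ev_eq_zero_iff (hdeg : ∀ P : Place K F, P.deg = 1) {t : F} {tb : Fk}
    (h : IsParam RD x t tb) (a : IsLocalRing.maximalIdeal A) (f : discRing RD x)
    (hf : (f : F) ≠ 0) : (discAlg hdeg h).ev a f = 0 ↔ 0 < (pt h a).ord (f : F) := by
  rw [ord_pos_iff _ hf, ← valueAt_eq_zero_iff (pt h a) (hdeg _) (f.2.2 _ (r_pt h a))]
  constructor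
  · intro h0
    have := congrArg (fun z : A => (z : K)) h0
    simpa using this
  · intro h0
    apply Subtype.ext
    simpa using h0

theorem coe_aeval_nodal (hdeg : ∀ P : Place K F, P.deg = 1) {t : F} {tb : Fk}
    (h : IsParam RD x t tb) (l : List (IsLocalRing.maximalIdeal A)) :
    ((aeval (discAlg hdeg h).t (DiscAlg.nodal l) : discRing RD x) : F) =
      (l.map fun a : IsLocalRing.maximalIdeal A => t - algebraMap K F (((a : A) : K))).prod := by
  induction l with
  | nil => simp
  | cons a l ih =>
    rw [DiscAlg.aeval_nodal_cons, List.map_cons, List.prod_cons, ← ih]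
    rfl

theorem aeval_nodal_ne_zero (hdeg : ∀ P : Place K F, P.deg = 1) {t : F} {tb : Fk}
    (h : IsParam RD x t tb) (l : List (IsLocalRing.maximalIdeal A)) :
    ((aeval (discAlg hdeg h).t (DiscAlg.nodal l) : discRing RD x) : F) ≠ 0 := by
  rw [coe_aeval_nodal]
  apply List.prod_ne_zero
  intro h0
  obtain ⟨a, -, ha⟩ := List.mem_map.mp h0
  exact h.sub_const_ne_zero a ha

/-- The reduction of `∏ (t - a_i)` is `tb ^ n`. -/
theorem red_aeval_nodal (hdeg : ∀ P : Place K F, P.deg = 1) {t : F} {tb : Fk}
    (h : IsParam RD x t tb) (l : List (IsLocalRing.maximalIdeal A)) :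
    RD.Red ((aeval (discAlg hdeg h).t (DiscAlg.nodal l) : discRing RD x) : F)
      (tb ^ l.length) := by
  rw [coe_aeval_nodal]
  induction l with
  | nil => simpa using RD.red_one
  | cons a l ih =>
    rw [List.map_cons, List.prod_cons, List.length_cons, pow_succ']
    exact RD.red_mul (h.sub_const a).red ih

/-- The order of `∏ (t - a_i)` at `pt h a` is the multiplicity of `a` in the list. -/
theorem ord_pt_aeval_nodal (hdeg : ∀ P : Place K F, P.deg = 1) {t : F} {tb : Fk}
    (h : IsParam RD x t tb) [DecidableEq (IsLocalRing.maximalIdeal A)]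
    (a : IsLocalRing.maximalIdeal A) (l : List (IsLocalRing.maximalIdeal A)) :
    (pt h a).ord ((aeval (discAlg hdeg h).t (DiscAlg.nodal l) : discRing RD x) : F) =
      l.count a := by
  induction l with
  | nil => simp
  | cons b l ih =>
    have h1 := aeval_nodal_ne_zero hdeg h l
    rw [coe_aeval_nodal] at h1 ih
    rw [coe_aeval_nodal, List.map_cons, List.prod_cons,
      (pt h a).ord_mul (h.sub_const_ne_zero b) h1, ih, ord_pt_sub hdeg h a b,
      List.count_cons]
    by_cases hab : a = b
    · subst hab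
      simp
      ring
    · have hba : ¬ b = a := fun hh => hab hh.symm
      simp [hab, hba]

/-- **Divisibility from vanishing.**  A disc function vanishing on the divisor `∑ [pt h a_i]`
is divisible by `∏ (t - a_i)` in the disc ring. -/
theorem exists_eq_nodal_mul (hdeg : ∀ P : Place K F, P.deg = 1) {t : F} {tb : Fk}
    (h : IsParam RD x t tb) [DecidableEq (IsLocalRing.maximalIdeal A)]
    (l : List (IsLocalRing.maximalIdeal A)) (f : discRing RD x)
    (hf : ∀ a ∈ l, ((l.count a : ℕ) : ℤ) ≤ (pt h a).ord (f : F)) :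
    ∃ g : discRing RD x, f = aeval (discAlg hdeg h).t (DiscAlg.nodal l) * g := by
  induction l generalizing f with
  | nil => exact ⟨f, by simp⟩
  | cons b l ih =>
    rcases eq_or_ne (f : F) 0 with hf0 | hf0
    · refine ⟨0, ?_⟩
      rw [mul_zero]
      exact Subtype.ext hf0
    -- `f` vanishes at `pt h b`
    have hb : (discAlg hdeg h).ev b f = 0 := by
      rw [ev_eq_zero_iff hdeg h b f hf0]
      have := hf b List.mem_cons_self
      rw [List.count_cons_self] at this
      push_cast at this
      omega
    obtain ⟨f₁, hf₁⟩ := (discAlg hdeg h).taylor b f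
    rw [hb, map_zero, zero_add] at hf₁
    have hf₁0 : (f₁ : F) ≠ 0 := by
      intro h0
      apply hf0
      rw [hf₁, Subring.coe_mul, h0, mul_zero]
    have hcoe : (f : F) = (t - algebraMap K F (((b : A) : K))) * (f₁ : F) := by
      rw [hf₁]; rfl
    obtain ⟨g, hg⟩ := ih f₁ (by
      intro a ha
      have h1 := hf a (List.mem_cons_of_mem _ ha)
      rw [hcoe, (pt h a).ord_mul (h.sub_const_ne_zero b) hf₁0, ord_pt_sub hdeg h a b,
        List.count_cons] at h1
      by_cases hab : a = b
      · subst hab
        simp only [if_true, beq_self_eq_true] at h1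
        push_cast at h1
        omega
      · have hba : ¬ b = a := fun hh => hab hh.symm
        simp only [hab, if_false] at h1
        have h2 : (b == a) = false := by simpa using hba
        rw [h2] at h1
        simpa using h1)
    refine ⟨g, ?_⟩
    rw [DiscAlg.aeval_nodal_cons, mul_assoc, ← hg]
    exact hf₁

/-- **Vanishing from divisibility.** -/
theorem ord_pt_eq_of_eq_nodal_mul (hdeg : ∀ P : Place K F, P.deg = 1) {t : F} {tb : Fk}
    (h : IsParam RD x t tb) [DecidableEq (IsLocalRing.maximalIdeal A)]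
    (l : List (IsLocalRing.maximalIdeal A)) (f g : discRing RD x) (hg0 : (g : F) ≠ 0)
    (hfg : f = aeval (discAlg hdeg h).t (DiscAlg.nodal l) * g) (a : IsLocalRing.maximalIdeal A) :
    (pt h a).ord (f : F) = l.count a + (pt h a).ord (g : F) := by
  rw [hfg, Subring.coe_mul, (pt h a).ord_mul (aeval_nodal_ne_zero hdeg h l) hg0,
    ord_pt_aeval_nodal hdeg h a l]

theorem le_ord_pt_of_eq_nodal_mul (hdeg : ∀ P : Place K F, P.deg = 1) {t : F} {tb : Fk}
    (h : IsParam RD x t tb) [DecidableEq (IsLocalRing.maximalIdeal A)]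
    (l : List (IsLocalRing.maximalIdeal A)) (f g : discRing RD x) (hf0 : (f : F) ≠ 0)
    (hfg : f = aeval (discAlg hdeg h).t (DiscAlg.nodal l) * g) (a : IsLocalRing.maximalIdeal A) :
    ((l.count a : ℕ) : ℤ) ≤ (pt h a).ord (f : F) := by
  have hg0 : (g : F) ≠ 0 := by
    intro h0
    apply hf0
    rw [hfg, Subring.coe_mul, h0, mul_zero]
  rw [ord_pt_eq_of_eq_nodal_mul hdeg h l f g hg0 hfg a]
  have : 0 ≤ (pt h a).ord (g : F) :=
    (ord_nonneg_iff _ hg0).mpr (g.2.2 _ (r_pt h a))
  omega

/-- A disc function whose reduction does not vanish at `x` has unit values. -/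
theorem isUnit_ev_of_red (hdeg : ∀ P : Place K F, P.deg = 1) {t : F} {tb : Fk}
    (h : IsParam RD x t tb) (u : discRing RD x) {ub : Fk} (hu : RD.Red (u : F) ub)
    (hub : x.adicValuation ub = 1) (a : IsLocalRing.maximalIdeal A) :
    IsUnit ((discAlg hdeg h).ev a u) := by
  by_contra hnu
  have hπ : π ((discAlg hdeg h).ev a u) = 0 := (RD.π_ker _).mpr hnu
  have h1 := red_valueAt hdeg h a u.2 hu
  have h2 : (⟨valueAt (pt h a) (u : F), valueAt_pt_mem hdeg h a u.2⟩ : A) =
      (discAlg hdeg h).ev a u := rfl
  rw [h2, hπ, map_zero, sub_zero, hub] at h1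
  exact lt_irrefl _ h1

/-- Conversely, unit values force a reduction which does not vanish at `x`. -/
theorem val_red_eq_one_of_isUnit_ev (hdeg : ∀ P : Place K F, P.deg = 1) {t : F} {tb : Fk}
    (h : IsParam RD x t tb) (u : discRing RD x) {ub : Fk} (hu : RD.Red (u : F) ub)
    (a : IsLocalRing.maximalIdeal A) (hunit : IsUnit ((discAlg hdeg h).ev a u)) :
    x.adicValuation ub = 1 := by
  have hπ : π ((discAlg hdeg h).ev a u) ≠ 0 := fun h0 => (RD.π_ker _).mp h0 hunit
  have h1 := red_valueAt hdeg h a u.2 hu
  have h2 : (⟨valueAt (pt h a) (u : F), valueAt_pt_mem hdeg h a u.2⟩ : A) =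
      (discAlg hdeg h).ev a u := rfl
  rw [h2] at h1
  have h3 : x.adicValuation (algebraMap k Fk (π ((discAlg hdeg h).ev a u))) = 1 :=
    val_algebraMap x hπ
  have h4 : ub = (ub - algebraMap k Fk (π ((discAlg hdeg h).ev a u))) +
      algebraMap k Fk (π ((discAlg hdeg h).ev a u)) := by ring
  rw [h4]
  exact (Valuation.map_add_eq_of_lt_right _ (by rw [h3]; exact h1)).trans h3

/-- **Weierstrass preparation in the disc.**  If the reduction of `f` has order `n` at `x` and
`f` vanishes on a divisor `∑ [pt h a_i]` of degree `n` in the disc, then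
`f = ∏ (t - a_i) * u` with `u` a disc function all of whose values are units. -/
theorem exists_eq_nodal_mul_unit (hdeg : ∀ P : Place K F, P.deg = 1) {t : F} {tb : Fk}
    (h : IsParam RD x t tb) [DecidableEq (IsLocalRing.maximalIdeal A)]
    (l : List (IsLocalRing.maximalIdeal A)) (f : discRing RD x) {fb : Fk}
    (hfb : RD.Red (f : F) fb) (hfb0 : fb ≠ 0) (hn : x.ord fb = l.length)
    (hf : ∀ a ∈ l, ((l.count a : ℕ) : ℤ) ≤ (pt h a).ord (f : F)) :
    ∃ u : discRing RD x, f = aeval (discAlg hdeg h).t (DiscAlg.nodal l) * u ∧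
      (∀ a, IsUnit ((discAlg hdeg h).ev a u)) ∧
      ∀ P, r P = x → P.ord (u : F) = 0 := by
  obtain ⟨u, hu⟩ := exists_eq_nodal_mul hdeg h l f hf
  obtain ⟨ub, hub⟩ := u.2.1
  have h1 : RD.Red (f : F) (tb ^ l.length * ub) := by
    rw [hu, Subring.coe_mul]
    exact RD.red_mul (red_aeval_nodal hdeg h l) hub
  have h2 : fb = tb ^ l.length * ub := RD.red_unique hfb h1
  have hub0 : ub ≠ 0 := by
    rintro rfl
    rw [mul_zero] at h2
    exact hfb0 h2
  have h3 : x.ord ub = 0 := by
    have h4 := x.ord_mul (pow_ne_zero l.length h.tb_ne_zero) hub0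
    rw [← h2, hn, ← zpow_natCast, x.ord_zpow, h.ord] at h4
    omega
  have h5 : x.adicValuation ub = 1 := by
    rw [val_eq_exp_neg_ord x hub0, h3, neg_zero, exp_zero]
  have hunit : ∀ a, IsUnit ((discAlg hdeg h).ev a u) :=
    fun a => isUnit_ev_of_red hdeg h u hub h5 a
  refine ⟨u, hu, hunit, fun P hP => ?_⟩
  -- a function with unit values has no zeros in the disc
  have hu0 : (u : F) ≠ 0 := RD.ne_zero_of_red hub hub0
  obtain ⟨a, rfl⟩ := pt_surjective h hdeg hP
  have h6 : 0 ≤ (pt h a).ord (u : F) := (ord_nonneg_iff _ hu0).mpr (u.2.2 _ (r_pt h a))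
  have h7 : ¬ 0 < (pt h a).ord (u : F) := by
    rw [← ev_eq_zero_iff hdeg h a u hu0]
    intro h0
    have := hunit a
    rw [h0] at this
    exact not_isUnit_zero this
  omega

end Dictionary

end Disc

end Fermat.Agent.A3.H259
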