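import Fermat.Agent.A3.H799.LocalSpec
import Fermat.Agent.A3.H259.DiscInst
import Fermat.Agent.S19.H195.GoodRedD12
import Fermat.Agent.Lib.RR.H439.Pencil

/-!
# A3 / LOCAL, leaf DISC: `discStatement : DiscStatement K F k Fk`  (helper259)

The frozen leaf `Fermat.Agent.A3.H799.DiscStatement` (LocalSpec.lean): every point `Q` of the
special fibre of a `GoodRed` has residue-disc data `DiscData 𝓡 Q` with an inertia-invariant
parameter.

* `redDataOfGoodRed` : adapter `GoodRed → S18/H573.RedData` (relational reduction).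
* `exists_invariant_lift` : for an inertia-invariant divisor `D` of degree `> 2g - 2`, every
  element of `L(r_* D)` is the reduction of an inertia-invariant integral function of `L(D)`.
* `exists_invariant_param` : an inertia-invariant parameter at every point `Q` of the special
  fibre (`t ∈ L(m P∞)` if `Q ≠ r P∞`, `t = u / s` with `u ∈ L((m-1) P∞)`, `s ∈ L(m P∞)` if
  `Q = r P∞`, where `P∞` is an inertia-fixed place).
* `discData` : the `DiscData` of a parameter, from `DiscInst.lean`.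
* `discStatement` : the leaf.
-/

set_option autoImplicit false

noncomputable section

namespace Fermat.Agent.A3.H259

open AlgebraicCurve IsDedekindDomain WithZero Polynomial
open Fermat.Agent.S18.H573 Fermat.Agent.A3.H799

variable {K F k Fk : Type*} [Field K] [Field F] [Algebra K F] [Field k] [Field Fk] [Algebra k Fk]

/-! ## The adapter `GoodRed → RedData` -/

/-- The kernel of the reduction of functions is the maximal ideal of `O`. -/
theorem GoodRed_inv_mem (𝓡 : GoodRed K F k Fk) (f : 𝓡.O) (hf : 𝓡.red f ≠ 0) :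
    (f : F)⁻¹ ∈ 𝓡.O := by
  have hmax : (RingHom.ker 𝓡.red).IsMaximal :=
    RingHom.ker_isMaximal_of_surjective 𝓡.red 𝓡.red_surjective
  have hker : RingHom.ker 𝓡.red = IsLocalRing.maximalIdeal 𝓡.O :=
    IsLocalRing.eq_maximalIdeal hmax
  have hunit : IsUnit f := by
    by_contra hnu
    have : f ∈ IsLocalRing.maximalIdeal 𝓡.O := (IsLocalRing.mem_maximalIdeal _).mpr hnu
    rw [← hker, RingHom.mem_ker] at this
    exact hf this
  obtain ⟨u, hu⟩ := hunit
  have h1 : ((u⁻¹ : (𝓡.O)ˣ) : 𝓡.O) * f = 1 := by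
    rw [← hu]; exact Units.inv_mul u
  have h2 : (((u⁻¹ : (𝓡.O)ˣ) : 𝓡.O) : F) * (f : F) = 1 := congrArg Subtype.val h1
  have h3 : (f : F)⁻¹ = (((u⁻¹ : (𝓡.O)ˣ) : 𝓡.O) : F) :=
    (eq_inv_of_mul_eq_one_left h2).symm
  rw [h3]
  exact Subtype.mem _

/-- `GoodRed` as a relational reduction datum. -/
def redDataOfGoodRed (𝓡 : GoodRed K F k Fk) : RedData 𝓡.V 𝓡.res F Fk 𝓡.r where
  Red f fb := ∃ h : f ∈ 𝓡.O, 𝓡.red ⟨f, h⟩ = fb
  π_surj := 𝓡.res_surjective
  π_ker a := by
    rw [𝓡.res_eq_zero, ValuationSubring.coe_mem_nonunits_iff, IsLocalRing.mem_maximalIdeal,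
      mem_nonunits_iff]
  red_add := by
    rintro f g fb gb ⟨hf, rfl⟩ ⟨hg, rfl⟩
    exact ⟨𝓡.O.add_mem _ _ hf hg, map_add 𝓡.red ⟨f, hf⟩ ⟨g, hg⟩⟩
  red_mul := by
    rintro f g fb gb ⟨hf, rfl⟩ ⟨hg, rfl⟩
    exact ⟨𝓡.O.mul_mem _ _ hf hg, map_mul 𝓡.red ⟨f, hf⟩ ⟨g, hg⟩⟩
  red_const a := ⟨(𝓡.algebraMap_mem _).mpr a.2, 𝓡.red_algebraMap a _⟩
  red_unique := by
    rintro f fb fb' ⟨hf, rfl⟩ ⟨hf', rfl⟩
    rfl
  red_inv := by
    rintro f fb ⟨hf, rfl⟩ hfb
    have hinv := GoodRed_inv_mem 𝓡 ⟨f, hf⟩ hfb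
    refine ⟨hinv, ?_⟩
    have hf0 : f ≠ 0 := by
      rintro rfl
      apply hfb
      exact map_zero 𝓡.red
    have h1 : (⟨f⁻¹, hinv⟩ : 𝓡.O) * ⟨f, hf⟩ = 1 := by
      apply Subtype.ext
      exact inv_mul_cancel₀ hf0
    have h2 := congrArg 𝓡.red h1
    rw [map_mul, map_one] at h2
    exact eq_inv_of_mul_eq_one_left h2
  push := by
    rintro f fb ⟨hf, rfl⟩ hfb D hD Q
    exact 𝓡.div_red ⟨f, hf⟩ hfb D hD Q
  normal := by
    intro f hf
    obtain ⟨a, ha, h, hred⟩ := 𝓡.gauss f hf
    refine ⟨a⁻¹, algebraMap K F a * f, _, inv_ne_zero ha, ⟨h, rfl⟩, hred, ?_⟩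
    rw [← mul_assoc, ← map_mul, inv_mul_cancel₀ ha, map_one, one_mul]

theorem red_iff (𝓡 : GoodRed K F k Fk) {f : F} {fb : Fk} :
    (redDataOfGoodRed 𝓡).Red f fb ↔ ∃ h : f ∈ 𝓡.O, 𝓡.red ⟨f, h⟩ = fb := Iff.rfl

/-! ## Inertia-invariant lifts -/

section Lift

variable (𝓡 : GoodRed K F k Fk)

theorem smul_algebraMap_mul (g : SemilinearAut K F) (a : K) (b : F) :
    g • (algebraMap K F a * b) = algebraMap K F (SemilinearAut.baseAut g a) * (g • b) := by
  rw [smul_mul', SemilinearAut.smul_algebraMap]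

/-- **Inertia-invariant integral Riemann–Roch**: for an inertia-invariant divisor `D` with
`deg D > 2g - 2`, every element of `L(r_* D)` is the reduction of an inertia-invariant integral
function of `L(D)`. -/
theorem exists_invariant_lift (D : Divisor K F) (hI : ∀ g ∈ 𝓡.I, g • D = D)
    (hD : 2 * (genusFF k Fk : ℤ) - 2 < Divisor.degree D) (gb : Fk)
    (hg : gb ∈ riemannRochSpace (Finsupp.mapDomain 𝓡.r D)) :
    ∃ f : 𝓡.O, (f : F) ∈ riemannRochSpace D ∧ 𝓡.red f = gb ∧
      ∀ g ∈ 𝓡.I, g • (f : F) = (f : F) := by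
  classical
  obtain ⟨f₀, hf₀D, hf₀⟩ := Fermat.Agent.S19.H195.GoodRedLemmas.exists_lift 𝓡 D hD gb hg
  obtain ⟨n, b, hli, hmem, hspan, hinv⟩ := 𝓡.orthonormal D
  have hinv' := hinv hI
  -- coordinates of `f₀` in the orthonormal basis
  have h1 : (f₀ : F) ∈ Submodule.span K (Set.range fun i => ((b i : 𝓡.O) : F)) := by
    rw [hspan]; exact hf₀D
  obtain ⟨c, hc⟩ := (Submodule.mem_span_range_iff_exists_fun K).mp h1
  have hcV : ∀ i, c i ∈ 𝓡.V := fun i =>
    Fermat.Agent.S19.H195.GoodRedLemmas.coeff_mem 𝓡 b hli Finset.univ c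
      (by rw [hc]; exact f₀.2) i (Finset.mem_univ i)
  -- inertia-invariant lifts of the residues of the coefficients
  choose a ha haI using fun i => 𝓡.I_lift_const (𝓡.res ⟨c i, hcV i⟩)
  have haO : ∀ i, algebraMap K F ((a i : 𝓡.V) : K) ∈ 𝓡.O := fun i =>
    (𝓡.algebraMap_mem _).mpr (a i).2
  have hcO : ∀ i, algebraMap K F (c i) ∈ 𝓡.O := fun i => (𝓡.algebraMap_mem _).mpr (hcV i)
  -- the lift
  set f : 𝓡.O := ∑ i, (⟨algebraMap K F ((a i : 𝓡.V) : K), haO i⟩ : 𝓡.O) * b i with hf
  have hfcoe : (f : F) = ∑ i, algebraMap K F ((a i : 𝓡.V) : K) * ((b i : 𝓡.O) : F) := by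
    rw [hf]
    simp
  have hf₀sum : f₀ = ∑ i, (⟨algebraMap K F (c i), hcO i⟩ : 𝓡.O) * b i := by
    apply Subtype.ext
    rw [← hc]
    simp [Algebra.smul_def]
  refine ⟨f, ?_, ?_, ?_⟩
  · rw [hfcoe]
    refine Submodule.sum_mem _ fun i _ => ?_
    rw [← Algebra.smul_def]
    exact Submodule.smul_mem _ _ (hmem i)
  · rw [← hf₀, hf₀sum, hf, map_sum, map_sum]
    refine Finset.sum_congr rfl fun i _ => ?_
    rw [map_mul, map_mul, 𝓡.red_algebraMap (a i) (haO i), ha i,
      𝓡.red_algebraMap ⟨c i, hcV i⟩ (hcO i)]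
  · intro g hg
    rw [hfcoe, Finset.smul_sum]
    refine Finset.sum_congr rfl fun i _ => ?_
    rw [smul_algebraMap_mul, haI i g hg, hinv' i g hg]

end Lift

/-! ## Inertia-invariant parameters -/

section Param

variable (𝓡 : GoodRed K F k Fk)

theorem val_le_one_of_mem_L_single {P₀ P : Place K F} (hne : P ≠ P₀) {m : ℤ} {f : F}
    (hf : f ∈ riemannRochSpace (Finsupp.single P₀ m)) : P.adicValuation f ≤ 1 := by
  classical
  rcases eq_or_ne f 0 with rfl | hf0
  · rw [map_zero]; exact zero_le_one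
  have h1 := (Lib.RR.mem_L_iff.mp hf P).resolve_left hf0
  rw [Finsupp.single_apply, if_neg (Ne.symm hne), neg_zero] at h1
  exact (ord_nonneg_iff P hf0).mp h1

/-- An inertia-invariant parameter at every point of the special fibre. -/
theorem exists_invariant_param (Q : Place k Fk) :
    ∃ (t : F) (tb : Fk), IsParam (redDataOfGoodRed 𝓡) Q t tb ∧ ∀ g ∈ 𝓡.I, g • t = t := by
  classical
  have := 𝓡.ff1
  have := 𝓡.ff1k
  have : HasPrincipalDivisors K F := 𝓡.ff1.hpd
  obtain ⟨Pinf, hPinf⟩ := 𝓡.I_fixed_place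
  set Qinf := 𝓡.r Pinf with hQinf
  set γ : ℤ := (genusFF k Fk : ℤ) with hγ
  have hγ0 : 0 ≤ γ := Int.natCast_nonneg _
  have hdegK : ∀ n : ℤ, Divisor.degree (Finsupp.single Pinf n) = n := fun n => by
    rw [Divisor.degree_single, Lib.RR.deg_eq_one, Nat.cast_one, mul_one]
  have hdegk : ∀ (R : Place k Fk) (n : ℤ), Divisor.degree (Finsupp.single R n) = n :=
    fun R n => by rw [Divisor.degree_single, Lib.RR.deg_eq_one, Nat.cast_one, mul_one]
  have hinvD : ∀ n : ℤ, ∀ g ∈ 𝓡.I, g • (Finsupp.single Pinf n : Divisor K F) =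
      Finsupp.single Pinf n := fun n g hg => by
    rw [SemilinearAut.smul_single, hPinf g hg]
  have hmap : ∀ n : ℤ, Finsupp.mapDomain 𝓡.r (Finsupp.single Pinf n : Divisor K F) =
      Finsupp.single Qinf n := fun n => Finsupp.mapDomain_single
  by_cases hQ : Q = Qinf
  · -- the point is the reduction of the invariant place: `t = u / s`
    obtain ⟨sb, hsbL, hsb0, hsbord⟩ := Lib.RR.H439.exists_mem_L_ord_eq
      (E := (Finsupp.single Qinf (2 * γ + 2) : Divisor k Fk))
      (by rw [hdegk]; omega) Qinf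
    obtain ⟨ub, hubL, hub0, hubord⟩ := Lib.RR.H439.exists_mem_L_ord_eq
      (E := (Finsupp.single Qinf (2 * γ + 1) : Divisor k Fk))
      (by rw [hdegk]; omega) Qinf
    rw [Finsupp.single_eq_same] at hsbord hubord
    obtain ⟨s, hsL, hsred, hsI⟩ := exists_invariant_lift 𝓡 (Finsupp.single Pinf (2 * γ + 2))
      (hinvD _) (by rw [hdegK]; omega) sb (by rw [hmap]; exact hsbL)
    obtain ⟨u, huL, hured, huI⟩ := exists_invariant_lift 𝓡 (Finsupp.single Pinf (2 * γ + 1))
      (hinvD _) (by rw [hdegK]; omega) ub (by rw [hmap]; exact hubL)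
    have hs0 : (s : F) ≠ 0 := by
      intro h0
      apply hsb0
      rw [← hsred]
      have : s = 0 := Subtype.ext h0
      rw [this, map_zero]
    have hu0 : (u : F) ≠ 0 := by
      intro h0
      apply hub0
      rw [← hured]
      have : u = 0 := Subtype.ext h0
      rw [this, map_zero]
    have hRs : (redDataOfGoodRed 𝓡).Red (s : F) sb := ⟨s.2, hsred⟩
    have hRu : (redDataOfGoodRed 𝓡).Red (u : F) ub := ⟨u.2, hured⟩
    have hRsi := (redDataOfGoodRed 𝓡).red_inv hRs hsb0
    have hRt : (redDataOfGoodRed 𝓡).Red ((u : F) * (s : F)⁻¹) (ub * sb⁻¹) :=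
      (redDataOfGoodRed 𝓡).red_mul hRu hRsi
    -- orders of `s` on the disc of `Qinf`
    obtain ⟨Ds, hDs, -⟩ := HasPrincipalDivisors.exists_divisor (K := K) (s : F) hs0
    have hpush := 𝓡.div_red s (by rw [hsred]; exact hsb0) Ds hDs Qinf
    rw [hsred, hsbord] at hpush
    have hsP : ∀ P : Place K F,
        -(Finsupp.single Pinf (2 * γ + 2) : Divisor K F) P ≤ P.ord (s : F) :=
      fun P => (Lib.RR.mem_L_iff.mp hsL P).resolve_left hs0
    have huP : ∀ P : Place K F,
        -(Finsupp.single Pinf (2 * γ + 1) : Divisor K F) P ≤ P.ord (u : F) :=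
      fun P => (Lib.RR.mem_L_iff.mp huL P).resolve_left hu0
    -- the divisor `Ds + (2γ+2) Pinf` is effective on the fibre, with fibre sum `0`
    set D' : Divisor K F := Ds + Finsupp.single Pinf (2 * γ + 2) with hD'
    have hD'nn : ∀ P, 𝓡.r P = Qinf → 0 ≤ D' P := by
      intro P _
      have := hsP P
      rw [hD', Finsupp.add_apply, hDs]
      omega
    have hD'sum : Finsupp.mapDomain 𝓡.r D' Qinf ≤ 0 := by
      rw [hD', Finsupp.mapDomain_add, Finsupp.add_apply, hpush, Finsupp.mapDomain_single,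
        ← hQinf, Finsupp.single_eq_same]
      omega
    have hD'0 : ∀ P, 𝓡.r P = Qinf → D' P = 0 := fun P hP =>
      eq_zero_of_mapDomain_le_zero 𝓡.r D' Qinf hD'nn hD'sum hP
    have hordt : ∀ P : Place K F,
        P.ord ((u : F) * (s : F)⁻¹) = P.ord (u : F) - P.ord (s : F) := by
      intro P
      rw [P.ord_mul hu0 (inv_ne_zero hs0), P.ord_inv]
      ring
    refine ⟨(u : F) * (s : F)⁻¹, ub * sb⁻¹, ⟨hRt, ?_, ?_⟩, ?_⟩
    · rw [hQ, Qinf.ord_mul hub0 (inv_ne_zero hsb0), Qinf.ord_inv, hubord, hsbord]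
      ring
    · intro P hP
      rw [hQ] at hP
      rw [← ord_nonneg_iff P (mul_ne_zero hu0 (inv_ne_zero hs0)), hordt]
      have h1 := hD'0 P hP
      rw [hD', Finsupp.add_apply, hDs] at h1
      have h2 := huP P
      by_cases hPP : P = Pinf
      · subst hPP
        rw [Finsupp.single_eq_same] at h1 h2
        omega
      · rw [Finsupp.single_apply, if_neg (Ne.symm hPP)] at h1 h2
        omega
    · intro g hg
      rw [smul_mul', smul_inv'', huI g hg, hsI g hg]
  · -- the generic case: `t ∈ L(m Pinf)`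
    have hE : 2 * (genusFF k Fk : ℤ) ≤ Divisor.degree
        ((Finsupp.single Qinf (2 * γ + 2) - Finsupp.single Q 1 : Divisor k Fk)) := by
      rw [map_sub, hdegk, hdegk]
      omega
    obtain ⟨tb, htbL, htb0, htbord⟩ := Lib.RR.H439.exists_mem_L_ord_eq hE Q
    rw [Finsupp.sub_apply, Finsupp.single_eq_same, Finsupp.single_apply,
      if_neg (Ne.symm hQ)] at htbord
    have htbL' : tb ∈ riemannRochSpace (Finsupp.single Qinf (2 * γ + 2) : Divisor k Fk) := by
      refine Lib.RR.L_mono ?_ htbL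
      rw [Finsupp.le_def]
      intro v
      rw [Finsupp.sub_apply]
      have : (0 : ℤ) ≤ (Finsupp.single Q (1 : ℤ)) v := by
        rw [Finsupp.single_apply]
        split_ifs <;> norm_num
      omega
    obtain ⟨t, htL, htred, htI⟩ := exists_invariant_lift 𝓡 (Finsupp.single Pinf (2 * γ + 2))
      (hinvD _) (by rw [hdegK]; omega) tb (by rw [hmap]; exact htbL')
    refine ⟨(t : F), tb, ⟨⟨t.2, htred⟩, ?_, ?_⟩, htI⟩
    · rw [htbord]; ring
    · intro P hP
      have hne : P ≠ Pinf := by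
        rintro rfl
        exact hQ hP.symm
      exact val_le_one_of_mem_L_single hne htL

end Param

/-! ## The disc data of a parameter -/

section Data

variable (𝓡 : GoodRed K F k Fk) (Q : Place k Fk)

/-- The disc ring as a subalgebra over the valuation ring of the constants. -/
def discSubalgebra : Subalgebra 𝓡.V F :=
  { discRing (redDataOfGoodRed 𝓡) Q with
    algebraMap_mem' := fun a => algebraMap_mem_discRing (redDataOfGoodRed 𝓡) Q a }

theorem mem_discSubalgebra_iff {f : F} :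
    f ∈ discSubalgebra 𝓡 Q ↔ f ∈ discRing (redDataOfGoodRed 𝓡) Q := Iff.rfl

variable {𝓡 Q}

/-- The disc algebra on the subalgebra `discSubalgebra 𝓡 Q`. -/
def discAlgSub [HasPrincipalDivisors K F] (hdeg : ∀ P : Place K F, P.deg = 1) {t : F} {tb : Fk}
    (h : IsParam (redDataOfGoodRed 𝓡) Q t tb) : DiscAlg 𝓡.V (discSubalgebra 𝓡 Q) where
  t := ⟨t, h.mem⟩
  ev a :=
    { toFun := fun f => ⟨valueAt (pt h a) (f : F), valueAt_pt_mem hdeg h a f.2⟩
      map_one' := by
        apply Subtype.ext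
        have := valueAt_algebraMap (pt h a) (1 : K)
        rw [map_one] at this
        exact this
      map_mul' := fun f g => by
        apply Subtype.ext
        exact valueAt_mul (pt h a) (hdeg _) (f.2.2 _ (r_pt h a)) (g.2.2 _ (r_pt h a))
      map_zero' := by
        apply Subtype.ext
        have := valueAt_algebraMap (pt h a) (0 : K)
        rw [map_zero] at this
        exact this
      map_add' := fun f g => by
        apply Subtype.ext
        exact valueAt_add (pt h a) (hdeg _) (f.2.2 _ (r_pt h a)) (g.2.2 _ (r_pt h a))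
      commutes' := fun c => by
        apply Subtype.ext
        exact valueAt_algebraMap (pt h a) (c : K) }
  ev_t a := Subtype.ext (valueAt_pt_t h a)
  taylor a f := by
    refine ⟨⟨_, taylor_mem hdeg h a f.2⟩, Subtype.ext ?_⟩
    have hs0 := h.sub_const_ne_zero a
    show (f : F) = algebraMap K F (valueAt (pt h a) (f : F)) +
      (t - algebraMap K F (((a : 𝓡.V) : K))) *
        (((f : F) - algebraMap K F (valueAt (pt h a) (f : F))) /
          (t - algebraMap K F (((a : 𝓡.V) : K))))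
    rw [mul_div_cancel₀ _ hs0]
    ring
  nzd a f hf := by
    have hs0 := h.sub_const_ne_zero a
    have h1 : (t - algebraMap K F (((a : 𝓡.V) : K))) * (f : F) = 0 :=
      congrArg (Subtype.val) hf
    rcases mul_eq_zero.mp h1 with h2 | h2
    · exact absurd h2 hs0
    · exact Subtype.ext h2

/-- **The residue-disc data of a parameter.** -/
def discData {t : F} {tb : Fk} (h : IsParam (redDataOfGoodRed 𝓡) Q t tb) : DiscData 𝓡 Q :=
  haveI : HasPrincipalDivisors K F := 𝓡.ff1.hpd
  { ring := discSubalgebra 𝓡 Q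
    ring_le := fun f hf => by
      obtain ⟨⟨fb, hO, -⟩, -⟩ := hf
      exact hO
    ring_reg := fun f hf P hP => (val_le_one_iff P f).mp (hf.2 P hP)
    mem_ring := fun f hf hreg =>
      ⟨⟨_, hf, rfl⟩, fun P hP => (val_le_one_iff P f).mpr (hreg P hP)⟩
    D := discAlgSub (fun P => 𝓡.ff1.deg_eq_one P) h
    pt := pt h
    r_pt := r_pt h
    pt_surj := fun P hP => pt_surjective h (fun P => 𝓡.ff1.deg_eq_one P) hP
    ord_t := by
      obtain ⟨hO, hred⟩ := h.red
      have : Q.ord (𝓡.red ⟨t, hO⟩) = 1 := by rw [hred]; exact h.ord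
      exact this
    ev_spec := fun a f => by
      have hspec := valueAt_spec (pt h a) (𝓡.ff1.deg_eq_one _) (f.2.2 _ (r_pt h a))
      by_cases h0 : (f : F) - algebraMap K F (valueAt (pt h a) (f : F)) = 0
      · left
        exact sub_eq_zero.mp h0
      · right
        have := (ord_pos_iff _ h0).mpr hspec
        exact this
    red_ev := fun a f => by
      obtain ⟨⟨fb, hO, hfb⟩, hreg⟩ := f.2
      have hx := red_valueAt (fun P => 𝓡.ff1.deg_eq_one P) h a f.2 ⟨hO, rfl⟩
      by_cases h0 : 𝓡.red ⟨(f : F), hO⟩ - algebraMap k Fk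
          (𝓡.res ⟨valueAt (pt h a) (f : F),
            valueAt_pt_mem (fun P => 𝓡.ff1.deg_eq_one P) h a f.2⟩) = 0
      · left
        exact sub_eq_zero.mp h0
      · right
        have := (ord_pos_iff _ h0).mpr hx
        exact this }

@[simp] theorem discData_t {t : F} {tb : Fk} (h : IsParam (redDataOfGoodRed 𝓡) Q t tb) :
    (((discData h).D.t : (discData h).ring) : F) = t := rfl

theorem discData_pt {t : F} {tb : Fk} (h : IsParam (redDataOfGoodRed 𝓡) Q t tb) :
    haveI : HasPrincipalDivisors K F := 𝓡.ff1.hpd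
    (discData h).pt = pt h := rfl

end Data

/-! ## The leaf -/

/-- **Leaf DISC** of `Fermat.Agent.A3.H799.LocalSpec`: every point of the special fibre has
residue-disc data with an inertia-invariant parameter. -/
theorem discStatement (K F k Fk : Type*) [Field K] [Field F] [Algebra K F] [Field k] [Field Fk]
    [Algebra k Fk] : DiscStatement K F k Fk := by
  intro 𝓡 Q
  obtain ⟨t, tb, h, hI⟩ := exists_invariant_param 𝓡 Q
  exact ⟨discData h, hI⟩

end Fermat.Agent.A3.H259
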